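import Fermat.Prelude.Def_FormalHecke_Eigensystem
import Mathlib.Data.Nat.Factorization.Basic
import Mathlib.Tactic.LinearCombination
import Mathlib.Tactic.Ring

/-!
# Eigen-systems and recursions

`FormalHecke.IsEigensystem` and `FormalHecke.IsRecursive` agree
(`isRecursive_of_isEigensystem`, `isEigensystem_of_isRecursive`).
-/

set_option autoImplicit false

namespace FLTAgent.Eigenforms

variable {R : Type*} [CommRing R] {e a : ℕ → R}

theorem isEigensystem_mul_of_coprime (h : FormalHecke.IsEigensystem e a) {m n : ℕ}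
    (hmn : m.Coprime n) : a (m * n) = a m * a n := by
  induction m using Nat.strong_induction_on generalizing n with
  | _ m IH =>
    rcases eq_or_ne m 0 with rfl | hm0
    · rw [Nat.coprime_zero_left] at hmn
      subst hmn
      rw [Nat.mul_one, h.1, mul_one]
    rcases eq_or_ne m 1 with rfl | hm1
    · rw [Nat.one_mul, h.1, one_mul]
    have hp : m.minFac.Prime := Nat.minFac_prime hm1
    obtain ⟨d, hd⟩ := Nat.minFac_dvd m
    set p := m.minFac
    have hdlt : d < m := by
      rcases Nat.eq_zero_or_pos d with rfl | hpos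
      · omega
      · exact hd ▸ lt_mul_left hpos hp.one_lt
    have hpn : ¬ p ∣ n := fun hdvd =>
      Nat.not_coprime_of_dvd_of_dvd hp.one_lt ⟨d, hd⟩ hdvd hmn
    have hdn : d.Coprime n := Nat.Coprime.of_dvd_left ⟨p, by rw [hd, Nat.mul_comm]⟩ hmn
    have h1 := h.2 p hp (d * n)
    have h2 := h.2 p hp d
    have e1 : a (d * n) = a d * a n := IH d hdlt hdn
    rw [hd, Nat.mul_assoc]
    by_cases hpd : p ∣ d
    · rw [if_pos (hpd.mul_right n)] at h1
      rw [if_pos hpd] at h2
      have hdiv : d * n / p = d / p * n := by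
        rw [Nat.mul_comm, Nat.mul_div_assoc n hpd, Nat.mul_comm]
      have e2 : a (d / p * n) = a (d / p) * a n :=
        IH _ (lt_of_le_of_lt (Nat.div_le_self d p) hdlt)
          (Nat.Coprime.of_dvd_left (Nat.div_dvd_of_dvd hpd) hdn)
      rw [hdiv, e2, e1] at h1
      linear_combination h1 - a n * h2
    · rw [if_neg fun hh => (hp.dvd_mul.mp hh).elim hpd hpn] at h1
      rw [if_neg hpd] at h2
      rw [e1] at h1
      linear_combination h1 - a n * h2

theorem isRecursive_of_isEigensystem (h : FormalHecke.IsEigensystem e a) :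
    FormalHecke.IsRecursive e a := by
  refine ⟨h.1, fun m n hmn => isEigensystem_mul_of_coprime h hmn, fun ℓ r hℓ => ?_⟩
  have h1 := h.2 ℓ hℓ (ℓ ^ (r + 1))
  rw [if_pos (dvd_pow_self ℓ r.succ_ne_zero), pow_succ ℓ r, Nat.mul_div_cancel _ hℓ.pos,
    ← pow_succ ℓ r, ← pow_succ' ℓ (r + 1)] at h1
  linear_combination h1

theorem isEigensystem_of_isRecursive (h : FormalHecke.IsRecursive e a) (h0 : a 0 = 0) :
    FormalHecke.IsEigensystem e a := by
  refine ⟨h.1, fun ℓ hℓ n => ?_⟩
  rcases eq_or_ne n 0 with rfl | hn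
  · simp [h0]
  obtain ⟨r, m, hm, rfl⟩ := Nat.exists_eq_pow_mul_and_not_dvd hn ℓ hℓ.ne_one
  have hcop : ∀ s, (ℓ ^ s).Coprime m := fun s =>
    Nat.Coprime.pow_left s (hℓ.coprime_iff_not_dvd.mpr hm)
  rcases r with _ | r
  · rw [pow_zero, Nat.one_mul, if_neg hm, mul_zero, add_zero]
    simpa using h.2.1 ℓ m (hℓ.coprime_iff_not_dvd.mpr hm)
  · rw [if_pos ((dvd_pow_self ℓ r.succ_ne_zero).mul_right m), ← Nat.mul_assoc,
      ← pow_succ' ℓ (r + 1), pow_succ' ℓ r, Nat.mul_assoc, Nat.mul_div_cancel_left _ hℓ.pos,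
      ← Nat.mul_assoc, ← pow_succ' ℓ r, h.2.1 _ _ (hcop _), h.2.1 _ _ (hcop _),
      h.2.1 _ _ (hcop _), h.2.2 ℓ r hℓ]
    ring

end FLTAgent.Eigenforms
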