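import Fermat.Agent.Eigenforms.Duality
import Fermat.Agent.Eigenforms.Recursion

/-!
# Eigenforms and characters of the Hecke algebra

Normalised eigenforms correspond to complex characters of the Hecke algebra (`eigenChar`,
`exists_eigenform_of_char`, `eigenform_ext`); their coefficients are algebraic integers
(`isIntegral_qCoeff`) and there are only finitely many of each level
(`finite_setOf_isNormalizedEigenform`).
-/

set_option autoImplicit false

noncomputable section

open CongruenceSubgroup ModularFormClass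

namespace FLTAgent.Eigenforms

variable {N : ℕ} [NeZero N]

theorem isEigensystem_of_eigenform {f : CuspForm (Gamma0 N) 2} (hf : f.IsNormalizedEigenform) :
    FormalHecke.IsEigensystem (fun ℓ => heckeE ℂ N ℓ) (fun n => qCoeff f n) := by
  refine isEigensystem_of_isRecursive ⟨hf.qCoeff_one, hf.qCoeff_mul_of_coprime, fun ℓ r hℓ => ?_⟩
    (qCoeff_at_zero f)
  by_cases h : ℓ ∣ N
  · simp only [heckeE, if_pos h, zero_mul, sub_zero]
    exact hf.qCoeff_prime_pow_of_dvd ℓ r hℓ h
  · simp only [heckeE, if_neg h]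
    exact hf.qCoeff_prime_pow_of_not_dvd ℓ r hℓ h

omit [NeZero N] in
theorem isNormalizedEigenform_of_isEigensystem {f : CuspForm (Gamma0 N) 2}
    (h : FormalHecke.IsEigensystem (fun ℓ => heckeE ℂ N ℓ) (fun n => qCoeff f n)) :
    f.IsNormalizedEigenform := by
  obtain ⟨h1, hmul, hrec⟩ := isRecursive_of_isEigensystem h
  refine ⟨h1, hmul, fun p r hp hpN => ?_, fun p r hp hpN => ?_⟩
  · simpa [heckeE, hpN] using hrec p r hp
  · simpa [heckeE, hpN] using hrec p r hp

theorem heckeFormsGen_apply_eigenform {f : CuspForm (Gamma0 N) 2}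
    (hf : f.IsNormalizedEigenform) (ℓ : Nat.Primes) :
    (CuspForm.heckeFormsGen N 2 ℓ).1 f = qCoeff f ℓ • f :=
  eq_of_qCoeff_eq fun n => by
    rw [qCoeff_heckeFormsGen, qCoeff_smul]
    exact (isEigensystem_of_eigenform hf).2 ℓ ℓ.2 n

/-- A nonzero common eigenvector of the generators of a Hecke algebra defines a character. -/
theorem exists_char_of_eigenvector {S : Set ℕ} {h : CuspForm (Gamma0 N) 2} (h0 : h ≠ 0)
    (hT : ∀ (ℓ : ℕ) (hℓ : ℓ.Prime) (hℓN : ¬ ℓ ∣ N), ℓ ∉ S →
      ∃ c : ℂ, CuspForm.heckeTLin 2 hℓ hℓN h = c • h)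
    (hU : ∀ (q : ℕ) (hqN : q ∣ N), q.Prime → q ∉ S →
      ∃ c : ℂ, CuspForm.heckeULin 2 hqN h = c • h) :
    ∃ χ : CuspForm.heckeAlgebra N 2 S →+* ℂ, ∀ t, t.1 h = χ t • h := by
  have hex : ∀ t : CuspForm.heckeAlgebra N 2 S, ∃ c : ℂ, t.1 h = c • h := by
    rintro ⟨T, hT'⟩
    induction hT' using Algebra.adjoin_induction with
    | mem x hx =>
      rcases hx with ⟨ℓ, hℓ, hℓN, hℓS, rfl⟩ | ⟨q, hqN, hq, hqS, rfl⟩
      · exact hT ℓ hℓ hℓN hℓS
      · exact hU q hqN hq hqS
    | algebraMap r =>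
      exact ⟨r, by rw [Module.algebraMap_end_apply, Int.cast_smul_eq_zsmul]⟩
    | add x y _ _ hx hy =>
      obtain ⟨a, ha⟩ := hx
      obtain ⟨b, hb⟩ := hy
      exact ⟨a + b, by rw [LinearMap.add_apply, ha, hb, add_smul]⟩
    | mul x y _ _ hx hy =>
      obtain ⟨a, ha⟩ := hx
      obtain ⟨b, hb⟩ := hy
      exact ⟨b * a, by rw [Module.End.mul_apply, hb, map_smul, ha, smul_smul]⟩
  choose c hc using hex
  have huniq : ∀ x y : ℂ, x • h = y • h → x = y := fun x y e => smul_left_injective ℂ h0 e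
  exact ⟨{ toFun := c
           map_one' := huniq _ _ (by
             rw [← hc, OneMemClass.coe_one, Module.End.one_apply, one_smul])
           map_mul' := fun s t => huniq _ _ (by
             rw [← hc, MulMemClass.coe_mul, Module.End.mul_apply, hc t, map_smul, hc s, smul_smul,
               mul_comm])
           map_zero' := huniq _ _ (by
             rw [← hc, ZeroMemClass.coe_zero, LinearMap.zero_apply, zero_smul])
           map_add' := fun s t => huniq _ _ (by
             rw [← hc, AddMemClass.coe_add, LinearMap.add_apply, hc, hc, add_smul]) }, hc⟩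

theorem hecke_apply_eigenform {S : Set ℕ} {f : CuspForm (Gamma0 N) 2}
    (hf : f.IsNormalizedEigenform) (t : CuspForm.heckeAlgebra N 2 S) :
    t.1 f = qCoeff (t.1 f) 1 • f := by
  obtain ⟨χ, hχ⟩ := exists_char_of_eigenvector (S := S) (h := f)
    (fun h0 => zero_ne_one (α := ℂ) (by rw [← hf.qCoeff_one, h0, qCoeff_zero_form]))
    (fun ℓ hℓ hℓN _ => by
      have h := heckeFormsGen_apply_eigenform hf ⟨ℓ, hℓ⟩
      rw [CuspForm.heckeFormsGen_of_not_dvd (ℓ := ⟨ℓ, hℓ⟩) hℓN] at h
      exact ⟨_, h⟩)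
    (fun q hqN hq _ => by
      have h := heckeFormsGen_apply_eigenform hf ⟨q, hq⟩
      rw [CuspForm.heckeFormsGen_of_dvd (q := ⟨q, hq⟩) hqN] at h
      exact ⟨_, h⟩)
  rw [hχ t, qCoeff_smul, hf.qCoeff_one, mul_one]

/-- The eigencharacter of a normalised eigenform on the Hecke algebra away from `S`. -/
def eigenChar {S : Set ℕ} {f : CuspForm (Gamma0 N) 2} (hf : f.IsNormalizedEigenform) :
    CuspForm.heckeAlgebra N 2 S →+* ℂ where
  toFun t := qCoeff (t.1 f) 1
  map_one' := by rw [OneMemClass.coe_one, Module.End.one_apply, hf.qCoeff_one]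
  map_mul' s t := by
    rw [MulMemClass.coe_mul, Module.End.mul_apply]
    conv_lhs => rw [hecke_apply_eigenform hf t, map_smul, qCoeff_smul]
    exact mul_comm _ _
  map_zero' := by rw [ZeroMemClass.coe_zero, LinearMap.zero_apply, qCoeff_zero_form]
  map_add' s t := by rw [AddMemClass.coe_add, LinearMap.add_apply, qCoeff_add]

variable {S : Set ℕ}

theorem eigenChar_apply {f : CuspForm (Gamma0 N) 2} (hf : f.IsNormalizedEigenform)
    (t : CuspForm.heckeAlgebra N 2 S) : eigenChar hf t = qCoeff (t.1 f) 1 := rfl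

theorem apply_eq_eigenChar_smul {f : CuspForm (Gamma0 N) 2} (hf : f.IsNormalizedEigenform)
    (t : CuspForm.heckeAlgebra N 2 S) : t.1 f = eigenChar hf t • f :=
  hecke_apply_eigenform hf t

/-- The eigencharacter sends `T_ℓ` to the `ℓ`th coefficient. -/
theorem eigenChar_T {f : CuspForm (Gamma0 N) 2} (hf : f.IsNormalizedEigenform) {ℓ : ℕ}
    (hℓ : ℓ.Prime) (hℓN : ¬ ℓ ∣ N) (hℓS : ℓ ∉ S) :
    eigenChar hf (CuspForm.heckeAlgebra.T hℓ hℓN hℓS) = qCoeff f ℓ := by
  rw [eigenChar_apply, CuspForm.heckeAlgebra.coe_T, qCoeff_heckeTLin, one_mul,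
    if_neg hℓ.not_dvd_one, add_zero]

theorem eigenChar_U {f : CuspForm (Gamma0 N) 2} (hf : f.IsNormalizedEigenform) {q : ℕ}
    (hq : q.Prime) (hqN : q ∣ N) (hqS : q ∉ S) :
    eigenChar hf (CuspForm.heckeAlgebra.U hq hqN hqS) = qCoeff f q := by
  rw [eigenChar_apply, CuspForm.heckeAlgebra.coe_U, qCoeff_heckeULin, one_mul]

/-- Every complex character of the full Hecke algebra comes from a normalised eigenform. -/
theorem exists_eigenform_of_fullChar (hint : CuspForm.HasIntegralStructure N 2)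
    (χ : CuspForm.heckeAlgebra N 2 ∅ →+* ℂ) :
    ∃ (f : CuspForm (Gamma0 N) 2) (hf : f.IsNormalizedEigenform), eigenChar hf = χ := by
  obtain ⟨f, hf⟩ := heckePairingLin_surjective hint χ.toIntAlgHom.toLinearMap
  have hχ : ∀ t : CuspForm.heckeAlgebra N 2 ∅, qCoeff (t.1 f) 1 = χ t :=
    fun t => LinearMap.congr_fun hf t
  have heig : ∀ t : CuspForm.heckeAlgebra N 2 ∅, t.1 f = χ t • f := fun t =>
    hecke_qCoeff_one_injective fun s => by
      rw [← Module.End.mul_apply, ← MulMemClass.coe_mul, hχ, map_smul, qCoeff_smul, hχ, map_mul,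
        mul_comm]
  have h1 : qCoeff f 1 = 1 := by
    simpa [OneMemClass.coe_one, Module.End.one_apply] using hχ 1
  have hnorm : f.IsNormalizedEigenform := by
    refine isNormalizedEigenform_of_isEigensystem ⟨h1, fun ℓ hℓ n => ?_⟩
    have hn := qCoeff_heckeFormsGen (N := N) ⟨ℓ, hℓ⟩ f n
    have h1' := qCoeff_heckeFormsGen (N := N) ⟨ℓ, hℓ⟩ f 1
    simp only [heig, qCoeff_smul, h1, mul_one, if_neg hℓ.not_dvd_one, mul_zero, add_zero] at hn h1'
    rw [h1'] at hn
    exact hn.symm
  exact ⟨f, hnorm, RingHom.ext hχ⟩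

theorem subalgebraInclusion_isIntegral (hint : CuspForm.HasIntegralStructure N 2) (S : Set ℕ) :
    (Subalgebra.inclusion (CuspForm.heckeAlgebra_mono (N := N) (k := 2)
      (Set.empty_subset S))).toRingHom.IsIntegral := by
  intro x
  have hx : IsIntegral ℤ x := (heckeAlgebra_isIntegral hint ∅).isIntegral x
  let _ : Algebra (CuspForm.heckeAlgebra N 2 S) (CuspForm.heckeAlgebra N 2 ∅) :=
    (Subalgebra.inclusion (CuspForm.heckeAlgebra_mono (N := N) (k := 2)
      (Set.empty_subset S))).toRingHom.toAlgebra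
  have : IsScalarTower ℤ (CuspForm.heckeAlgebra N 2 S) (CuspForm.heckeAlgebra N 2 ∅) :=
    IsScalarTower.of_algebraMap_eq' (RingHom.ext_int _ _)
  exact hx.tower_top

/-- A character of the Hecke algebra away from `S` extends to the full Hecke algebra. -/
theorem exists_extend_to_full (hint : CuspForm.HasIntegralStructure N 2) {K : Type*} [Field K]
    [IsAlgClosed K] (θ : CuspForm.heckeAlgebra N 2 S →+* K) :
    ∃ Θ : CuspForm.heckeAlgebra N 2 ∅ →+* K,
      Θ.comp (Subalgebra.inclusion (CuspForm.heckeAlgebra_mono (Set.empty_subset S))).toRingHom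
        = θ :=
  exists_ringHom_extension _ (Subalgebra.inclusion_injective _)
    (subalgebraInclusion_isIntegral hint S) θ

/-- Every complex character of the Hecke algebra away from `S` comes from a normalised
eigenform. -/
theorem exists_eigenform_of_char (hint : CuspForm.HasIntegralStructure N 2)
    (χ : CuspForm.heckeAlgebra N 2 S →+* ℂ) :
    ∃ (f : CuspForm (Gamma0 N) 2) (hf : f.IsNormalizedEigenform), eigenChar hf = χ := by
  obtain ⟨X, hX⟩ := exists_extend_to_full hint χ
  obtain ⟨f, hf, rfl⟩ := exists_eigenform_of_fullChar hint X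
  exact ⟨f, hf, RingHom.ext fun t => RingHom.congr_fun hX t⟩

/-- A nonzero common eigenvector of the generators of a Hecke algebra has the eigensystem of a
normalised eigenform. -/
theorem exists_eigenform_of_eigenvector (hint : CuspForm.HasIntegralStructure N 2)
    {h : CuspForm (Gamma0 N) 2} (h0 : h ≠ 0)
    (hT : ∀ (ℓ : ℕ) (hℓ : ℓ.Prime) (hℓN : ¬ ℓ ∣ N), ℓ ∉ S →
      ∃ c : ℂ, CuspForm.heckeTLin 2 hℓ hℓN h = c • h)
    (hU : ∀ (q : ℕ) (hqN : q ∣ N), q.Prime → q ∉ S →
      ∃ c : ℂ, CuspForm.heckeULin 2 hqN h = c • h) :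
    ∃ (g : CuspForm (Gamma0 N) 2) (hg : g.IsNormalizedEigenform),
      ∀ t : CuspForm.heckeAlgebra N 2 S, t.1 h = eigenChar hg t • h := by
  obtain ⟨χ, hχ⟩ := exists_char_of_eigenvector h0 hT hU
  obtain ⟨g, hg, rfl⟩ := exists_eigenform_of_char hint χ
  exact ⟨g, hg, hχ⟩

/-- The eigencharacter takes integral values. -/
theorem isIntegral_eigenChar (hint : CuspForm.HasIntegralStructure N 2)
    {f : CuspForm (Gamma0 N) 2} (hf : f.IsNormalizedEigenform)
    (t : CuspForm.heckeAlgebra N 2 S) : IsIntegral ℤ (eigenChar hf t) :=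
  ((heckeAlgebra_isIntegral hint S).isIntegral t).map (eigenChar hf).toIntAlgHom

/-- Coefficients of normalised eigenforms are algebraic integers. -/
theorem isIntegral_qCoeff (hint : CuspForm.HasIntegralStructure N 2)
    {f : CuspForm (Gamma0 N) 2} (hf : f.IsNormalizedEigenform) (n : ℕ) :
    IsIntegral ℤ (qCoeff f n) := by
  obtain ⟨t, ht⟩ := exists_hecke_qCoeff (N := N) n
  rw [← ht f]
  exact isIntegral_eigenChar hint hf t

/-- The coefficient of a normalised eigenform as an algebraic integer. -/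
def intQCoeff (hint : CuspForm.HasIntegralStructure N 2)
    {f : CuspForm (Gamma0 N) 2} (hf : f.IsNormalizedEigenform) (n : ℕ) : integralClosure ℤ ℂ :=
  ⟨qCoeff f n, isIntegral_qCoeff hint hf n⟩

/-- A normalised eigenform is determined by its eigencharacter. -/
theorem eigenform_ext {f g : CuspForm (Gamma0 N) 2} (hf : f.IsNormalizedEigenform)
    (hg : g.IsNormalizedEigenform)
    (h : (eigenChar hf : CuspForm.heckeAlgebra N 2 ∅ →+* ℂ) = eigenChar hg) : f = g :=
  hecke_qCoeff_one_injective fun t => RingHom.congr_fun h t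

/-- There are only finitely many normalised eigenforms of a given level. -/
theorem finite_setOf_isNormalizedEigenform (hint : CuspForm.HasIntegralStructure N 2) :
    {f : CuspForm (Gamma0 N) 2 | f.IsNormalizedEigenform}.Finite := by
  have := cuspForm_finiteDimensional hint
  refine LinearIndependent.setFinite (R := ℂ) ?_
  have hchar : LinearIndependent ℂ fun φ : CuspForm.heckeAlgebra N 2 ∅ →+* ℂ =>
      (⇑φ : CuspForm.heckeAlgebra N 2 ∅ → ℂ) :=
    (linearIndependent_monoidHom (CuspForm.heckeAlgebra N 2 ∅) ℂ).comp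
      (fun φ : CuspForm.heckeAlgebra N 2 ∅ →+* ℂ => φ.toMonoidHom)
      (fun _ _ h => RingHom.ext fun x => DFunLike.congr_fun h x)
  let e : CuspForm (Gamma0 N) 2 →ₗ[ℂ] (CuspForm.heckeAlgebra N 2 ∅ → ℂ) :=
    LinearMap.pi fun t => qCoeffAt N 2 1 ∘ₗ t.1
  exact LinearIndependent.of_comp e (hchar.comp
    (fun f : {f : CuspForm (Gamma0 N) 2 | f.IsNormalizedEigenform} => eigenChar f.2)
    (fun f g h => Subtype.ext (eigenform_ext f.2 g.2 h)))

end FLTAgent.Eigenforms

end
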