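import Fermat.Agent.Eigenforms.Character
import Mathlib.NumberTheory.ModularForms.Cusps

/-!
# Changing the level

An eigen-system of level `M` occurs at every level `N` divisible by `M`: forms are viewed at the
larger level by `raiseLevel`, and `exists_eigenform_level_mul` produces the eigenform of level
`N`.
-/

set_option autoImplicit false

noncomputable section

open CongruenceSubgroup ModularFormClass UpperHalfPlane
open scoped MatrixGroups

namespace FLTAgent.Eigenforms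

theorem Gamma0_le_of_dvd {M N : ℕ} (h : M ∣ N) : Gamma0 N ≤ Gamma0 M := fun g hg => by
  rw [Gamma0_mem] at hg ⊢
  rw [ZMod.intCast_zmod_eq_zero_iff_dvd] at hg ⊢
  exact dvd_trans (Int.natCast_dvd_natCast.mpr h) hg

/-- A cusp form of level `M` viewed at a level `N` divisible by `M`. -/
def raiseLevel {M N : ℕ} [NeZero M] [NeZero N] (h : M ∣ N) (k : ℤ) :
    CuspForm (Gamma0 M) k →ₗ[ℂ] CuspForm (Gamma0 N) k where
  toFun f :=
    { toFun := ⇑f
      slash_action_eq' := fun γ hγ => SlashInvariantFormClass.slash_action_eq f γ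
        (Subgroup.map_mono (Gamma0_le_of_dvd h) hγ)
      holo' := CuspFormClass.holo f
      zero_at_cusps' := fun hc => CuspFormClass.zero_at_cusps f
        ((Subgroup.IsArithmetic.isCusp_iff_isCusp_SL2Z _).mpr
          ((Subgroup.IsArithmetic.isCusp_iff_isCusp_SL2Z _).mp hc)) }
  map_add' _ _ := rfl
  map_smul' _ _ := DFunLike.ext _ _ fun _ => rfl

@[simp] theorem coe_raiseLevel {M N : ℕ} [NeZero M] [NeZero N] (h : M ∣ N) (k : ℤ)
    (f : CuspForm (Gamma0 M) k) : ⇑(raiseLevel h k f) = ⇑f := rfl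

theorem heckeTLin_raiseLevel {M N : ℕ} [NeZero M] [NeZero N] (h : M ∣ N) (k : ℤ) {p : ℕ}
    (hp : p.Prime) (hpN : ¬ p ∣ N) (f : CuspForm (Gamma0 M) k) :
    CuspForm.heckeTLin k hp hpN (raiseLevel h k f) =
      raiseLevel h k (CuspForm.heckeTLin k hp (fun hh => hpN (hh.trans h)) f) :=
  DFunLike.coe_injective rfl

/-- The good eigen-system of an eigenform of level `M` occurs at every level divisible by `M`. -/
theorem exists_eigenform_level_mul {M N : ℕ} [NeZero M] [NeZero N]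
    (hint : CuspForm.HasIntegralStructure N 2) (h : M ∣ N) {f : CuspForm (Gamma0 M) 2}
    (hf : f.IsNormalizedEigenform) :
    ∃ g : CuspForm (Gamma0 N) 2, g.IsNormalizedEigenform ∧
      ∀ ℓ : ℕ, ℓ.Prime → ¬ ℓ ∣ N → qCoeff g ℓ = qCoeff f ℓ := by
  set S : Set ℕ := {ℓ | ℓ ∣ N}
  set f' := raiseLevel h 2 f
  have hgen : ∀ (ℓ : ℕ) (hℓ : ℓ.Prime) (hℓN : ¬ ℓ ∣ N),
      CuspForm.heckeTLin 2 hℓ hℓN f' = qCoeff f ℓ • f' := by
    intro ℓ hℓ hℓN
    have hT := apply_eq_eigenChar_smul hf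
      (CuspForm.heckeAlgebra.T (S := ∅) hℓ (fun hh => hℓN (hh.trans h)) (Set.notMem_empty _))
    rw [eigenChar_T, CuspForm.heckeAlgebra.coe_T] at hT
    rw [heckeTLin_raiseLevel, hT, map_smul]
  have h0 : f' ≠ 0 := fun e => by
    have h1 : qCoeff f' 1 = 1 := hf.qCoeff_one
    rw [e, qCoeff_zero_form] at h1
    exact zero_ne_one h1
  obtain ⟨g, hg, hgf⟩ := exists_eigenform_of_eigenvector (S := S) hint h0
    (fun ℓ hℓ hℓN _ => ⟨_, hgen ℓ hℓ hℓN⟩) (fun q hqN _ hqS => absurd hqN hqS)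
  refine ⟨g, hg, fun ℓ hℓ hℓN => ?_⟩
  rw [← eigenChar_T (S := S) hg hℓ hℓN hℓN]
  exact smul_left_injective ℂ h0 ((hgf _).symm.trans (hgen ℓ hℓ hℓN))

end FLTAgent.Eigenforms

end
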