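import Fermat.Agent.Eigenforms.Character
import Mathlib.RingTheory.ZMod
import Mathlib.FieldTheory.IsAlgClosed.AlgebraicClosure

/-!
# Lifting residual eigen-systems

Residual characters of the Hecke algebra lift to normalised eigenforms (`exists_eigenform_lift`,
`exists_eigenform_congruent`), and eigenvectors modulo `p` in the integral lattice give such
characters (`exists_residualChar_of_congruence`).
-/

set_option autoImplicit false

noncomputable section

open CongruenceSubgroup ModularFormClass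

namespace FLTAgent.Eigenforms

variable {N : ℕ} [NeZero N] {S : Set ℕ}

/-- Every character of the Hecke algebra away from `S` with values in an algebraically closed
field lifts to a normalised eigenform. -/
theorem exists_eigenform_lift (hint : CuspForm.HasIntegralStructure N 2) {K : Type*} [Field K]
    [IsAlgClosed K] (θ : CuspForm.heckeAlgebra N 2 S →+* K) :
    ∃ (f : CuspForm (Gamma0 N) 2) (hf : f.IsNormalizedEigenform)
      (ψ : integralClosure ℤ ℂ →+* K),
        ∀ (t : CuspForm.heckeAlgebra N 2 S) (c : integralClosure ℤ ℂ),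
          (c : ℂ) = eigenChar hf t → ψ c = θ t := by
  have := heckeAlgebra_isIntegral hint S
  obtain ⟨L, ψ, hψ⟩ := exists_complex_lift θ
  obtain ⟨f, hf, hfc⟩ :=
    exists_eigenform_of_char hint ((integralClosure ℤ ℂ).val.toRingHom.comp L)
  refine ⟨f, hf, ψ, fun t c hc => ?_⟩
  have hcL : c = L t := Subtype.ext (hc.trans (RingHom.congr_fun hfc t))
  rw [hcL]
  exact RingHom.congr_fun hψ t

/-- A character of the Hecke algebra away from `S` with values in a field of characteristic `p`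
lifts to a normalised eigenform, congruent to it modulo a maximal ideal over `p`. -/
theorem exists_eigenform_congruent (hint : CuspForm.HasIntegralStructure N 2) {p : ℕ}
    (hp : p.Prime) {k : Type*} [Field k] [CharP k p] (θ : CuspForm.heckeAlgebra N 2 S →+* k) :
    ∃ (f : CuspForm (Gamma0 N) 2) (hf : f.IsNormalizedEigenform)
      (𝔪 : Ideal (integralClosure ℤ ℂ)), 𝔪.IsMaximal ∧ (p : integralClosure ℤ ℂ) ∈ 𝔪 ∧
        (∀ (t : CuspForm.heckeAlgebra N 2 S) (n : ℤ), θ t = (n : k) →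
          ∃ c : integralClosure ℤ ℂ, (c : ℂ) = eigenChar hf t ∧
            c - (n : integralClosure ℤ ℂ) ∈ 𝔪) ∧
        ∀ t : CuspForm.heckeAlgebra N 2 S, θ t = 0 →
          ∃ c : integralClosure ℤ ℂ, (c : ℂ) = eigenChar hf t ∧ c ∈ 𝔪 := by
  have : CharP (AlgebraicClosure k) p :=
    charP_of_injective_algebraMap (algebraMap k (AlgebraicClosure k)).injective p
  obtain ⟨f, hf, ψ, hψ⟩ := exists_eigenform_lift hint ((algebraMap k (AlgebraicClosure k)).comp θ)
  have key : ∀ (t : CuspForm.heckeAlgebra N 2 S) (n : ℤ), θ t = (n : k) →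
      ∃ c : integralClosure ℤ ℂ, (c : ℂ) = eigenChar hf t ∧
        c - (n : integralClosure ℤ ℂ) ∈ RingHom.ker ψ := fun t n hn =>
    ⟨⟨_, isIntegral_eigenChar hint hf t⟩, rfl, by
      rw [RingHom.mem_ker, map_sub, map_intCast, hψ t _ rfl, RingHom.comp_apply, hn, map_intCast,
        sub_self]⟩
  refine ⟨f, hf, RingHom.ker ψ, isMaximal_ker_of_charP hp ψ, ?_, key, fun t ht => ?_⟩
  · rw [RingHom.mem_ker, map_natCast, CharP.cast_eq_zero]
  · simpa using key t 0 (by simpa using ht)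

/-- An eigenvector modulo `p` in the integral lattice gives a character mod `p` of the Hecke
algebra. -/
theorem exists_residualChar_of_congruence {p : ℕ} [Fact p.Prime]
    (g : CuspForm.intLattice N 2) (hg : ∃ n, ¬ (p : ℤ) ∣ intCoeff g n) (a : ℕ → ℤ)
    (heig : ∀ ℓ : Nat.Primes, (ℓ : ℕ) ∉ S → ∀ n : ℕ,
      (p : ℤ) ∣ intCoeff g (ℓ * n) +
        heckeE ℤ N ℓ * (if (ℓ : ℕ) ∣ n then intCoeff g (n / ℓ) else 0) - a ℓ * intCoeff g n) :
    ∃ θ : CuspForm.heckeAlgebra N 2 S →+* ZMod p,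
      (∀ (ℓ : ℕ) (hℓ : ℓ.Prime) (hℓN : ¬ ℓ ∣ N) (hℓS : ℓ ∉ S),
        θ (CuspForm.heckeAlgebra.T hℓ hℓN hℓS) = (a ℓ : ZMod p)) ∧
      (∀ (q : ℕ) (hq : q.Prime) (hqN : q ∣ N) (hqS : q ∉ S),
        θ (CuspForm.heckeAlgebra.U hq hqN hqS) = (a q : ZMod p)) := by
  obtain ⟨n₀, hn₀⟩ := hg
  -- the reduction modulo `p` of the lattice
  let red : CuspForm.intLattice N 2 →ₗ[ℤ] (ℕ → ZMod p) :=
    (Algebra.linearMap ℤ (ZMod p)).compLeft ℕ ∘ₗ intCoeffLin N 2
  have red_apply : ∀ x n, red x n = (intCoeff x n : ZMod p) := fun _ _ => rfl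
  let A : CuspForm.heckeAlgebra N 2 S →+* Module.End ℤ (CuspForm.intLattice N 2) :=
    CuspForm.latticeActionHom N S
  -- the kernel of the reduction is stable
  have hker : ∀ (t : CuspForm.heckeAlgebra N 2 S) (x : CuspForm.intLattice N 2),
      red x = 0 → red (A t x) = 0 := by
    intro t x hx
    have hdiv : ∀ n, (p : ℤ) ∣ intCoeff x n := fun n => by
      rw [← ZMod.intCast_zmod_eq_zero_iff_dvd, ← red_apply, hx, Pi.zero_apply]
    have hp0 : (p : ℂ) ≠ 0 := Nat.cast_ne_zero.mpr (Fact.out : p.Prime).ne_zero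
    have hmem : ((p : ℂ)⁻¹ • x.1) ∈ CuspForm.intLattice N 2 := by
      refine (mem_intLattice_iff _).mpr fun n => ⟨(hdiv n).choose, ?_⟩
      rw [qCoeff_smul, ← intCoeff_spec, inv_mul_eq_iff_eq_mul₀ hp0]
      exact_mod_cast (hdiv n).choose_spec
    have hxeq : x = (p : ℤ) • (⟨_, hmem⟩ : CuspForm.intLattice N 2) := Subtype.ext (by
      rw [SetLike.val_smul, ← Int.cast_smul_eq_zsmul ℂ, Int.cast_natCast, smul_smul,
        mul_inv_cancel₀ hp0, one_smul])
    rw [hxeq, map_smul, map_smul]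
    funext n
    simp
  have hsmul : ∀ (t : CuspForm.heckeAlgebra N 2 S) (x : CuspForm.intLattice N 2) (c : ℤ),
      red x = (c : ZMod p) • red g → red (A t x) = (c : ZMod p) • red (A t g) := by
    intro t x c hx
    have h0 : red (x - c • g) = 0 := by
      rw [map_sub, map_smul, hx, Int.cast_smul_eq_zsmul, sub_self]
    have h1 := hker t _ h0
    rwa [map_sub, map_sub, map_smul, map_smul, sub_eq_zero, ← Int.cast_smul_eq_zsmul (ZMod p)]
      at h1
  have gen : ∀ ℓ : Nat.Primes, (ℓ : ℕ) ∉ S →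
      ∀ x : CuspForm.intLattice N 2, x.1 = (CuspForm.heckeFormsGen N 2 ℓ).1 g.1 →
      red x = (a ℓ : ZMod p) • red g := by
    intro ℓ hℓ x hx
    funext n
    rw [Pi.smul_apply, red_apply, red_apply, smul_eq_mul, ← Int.cast_mul,
      ← sub_eq_zero, ← Int.cast_sub, ZMod.intCast_zmod_eq_zero_iff_dvd]
    refine (congrArg (fun y => (p : ℤ) ∣ y - a ℓ * intCoeff g n) ?_).mpr (heig ℓ hℓ n)
    apply Int.cast_injective (α := ℂ)
    rw [intCoeff_spec, hx, qCoeff_heckeFormsGen, Int.cast_add, Int.cast_mul, intCoeff_spec,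
      ← eq_intCast (Int.castRingHom ℂ) (heckeE ℤ N ℓ), map_heckeE]
    congr 2
    split_ifs <;> simp [intCoeff_spec]
  have hex : ∀ t : CuspForm.heckeAlgebra N 2 S,
      ∃ c : ℤ, red (A t g) = (c : ZMod p) • red g := by
    rintro ⟨T, hT⟩
    induction hT using Algebra.adjoin_induction with
    | mem x hx =>
      rcases hx with ⟨ℓ, hℓ, hℓN, hℓS, rfl⟩ | ⟨q, hqN, hq, hqS, rfl⟩
      · refine ⟨a ℓ, gen ⟨ℓ, hℓ⟩ hℓS _ ?_⟩
        rw [CuspForm.heckeFormsGen_of_not_dvd (ℓ := ⟨ℓ, hℓ⟩) hℓN]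
        rfl
      · refine ⟨a q, gen ⟨q, hq⟩ hqS _ ?_⟩
        rw [CuspForm.heckeFormsGen_of_dvd (q := ⟨q, hq⟩) hqN]
        rfl
    | algebraMap r =>
      refine ⟨r, ?_⟩
      rw [show (⟨_, Subalgebra.algebraMap_mem _ r⟩ : CuspForm.heckeAlgebra N 2 S) =
        algebraMap ℤ _ r from rfl, eq_intCast, map_intCast, Module.End.intCast_apply, map_smul,
        Int.cast_smul_eq_zsmul]
    | add x y hx hy ihx ihy =>
      obtain ⟨b, hb⟩ := ihx
      obtain ⟨c, hc⟩ := ihy
      refine ⟨b + c, ?_⟩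
      rw [show (⟨x + y, _⟩ : CuspForm.heckeAlgebra N 2 S) = ⟨x, hx⟩ + ⟨y, hy⟩ from rfl, map_add,
        LinearMap.add_apply, map_add, hb, hc, Int.cast_add, add_smul]
    | mul x y hx hy ihx ihy =>
      obtain ⟨b, hb⟩ := ihx
      obtain ⟨c, hc⟩ := ihy
      refine ⟨c * b, ?_⟩
      rw [show (⟨x * y, _⟩ : CuspForm.heckeAlgebra N 2 S) = ⟨x, hx⟩ * ⟨y, hy⟩ from rfl, map_mul,
        Module.End.mul_apply, hsmul _ _ c hc, hb, smul_smul, Int.cast_mul]
  have huniq : ∀ b c : ZMod p, b • red g = c • red g → b = c := by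
    intro b c h
    refine mul_right_cancel₀ ?_ (congrFun h n₀)
    rwa [red_apply, Ne, ZMod.intCast_zmod_eq_zero_iff_dvd]
  choose θ hθ using hex
  let φ : CuspForm.heckeAlgebra N 2 S →+* ZMod p :=
    { toFun := fun t => (θ t : ZMod p)
      map_one' := huniq _ _ (by rw [← hθ, map_one, Module.End.one_apply, one_smul])
      map_mul' := fun s t => huniq _ _ (by
        rw [← hθ, map_mul, Module.End.mul_apply, hsmul _ _ _ (hθ t), hθ s, smul_smul, mul_comm])
      map_zero' := huniq _ _ (by rw [← hθ, map_zero, LinearMap.zero_apply, map_zero, zero_smul])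
      map_add' := fun s t => huniq _ _ (by
        rw [← hθ, map_add, LinearMap.add_apply, map_add, hθ, hθ, add_smul]) }
  refine ⟨φ, fun ℓ hℓ hℓN hℓS => huniq _ _ ?_, fun q hq hqN hqS => huniq _ _ ?_⟩
  · refine (hθ _).symm.trans (gen ⟨ℓ, hℓ⟩ hℓS _ ?_)
    rw [CuspForm.heckeFormsGen_of_not_dvd (ℓ := ⟨ℓ, hℓ⟩) hℓN]
    rfl
  · refine (hθ _).symm.trans (gen ⟨q, hq⟩ hqS _ ?_)
    rw [CuspForm.heckeFormsGen_of_dvd (q := ⟨q, hq⟩) hqN]
    rfl

end FLTAgent.Eigenforms

end
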