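import Fermat.Agent.Eigenforms.Basic
import Mathlib.NumberTheory.ModularForms.Bounds

/-!
# An elementary bound on eigenvalues

The bound `‖a_p‖ < p + 1` for eigenvalues of `T_p` on weight two cusp forms
(`norm_eigenvalue_lt`, `norm_qCoeff_prime_lt`), from the maximum of the invariant height
`weightTwoHeight`.
-/

set_option autoImplicit false

noncomputable section

open CongruenceSubgroup ModularFormClass UpperHalfPlane Filter Topology
open scoped MatrixGroups ModularForm Modular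

namespace FLTAgent.Eigenforms

/-- A nonzero nonnegative continuous function invariant under a finite index subgroup of
`SL(2, ℤ)` which vanishes at all cusps attains its maximum. -/
theorem exists_isMax_of_invariant_of_zero_at_cusps {F : ℍ → ℝ} (hcont : Continuous F)
    (hzero : ∀ g : SL(2, ℤ), IsZeroAtImInfty fun τ => F (g • τ))
    (Γ : Subgroup SL(2, ℤ)) [Γ.FiniteIndex] (hinv : ∀ g ∈ Γ, ∀ τ, F (g • τ) = F τ)
    {τ₁ : ℍ} (h₁ : 0 < F τ₁) : ∃ τ₀, ∀ τ, F τ ≤ F τ₀ := by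
  classical
  have : Fintype (SL(2, ℤ) ⧸ Γ) := Subgroup.fintypeQuotientOfFiniteIndex
  have hY : ∀ q : SL(2, ℤ) ⧸ Γ, ∃ Y : ℝ, ∀ σ : ℍ, Y ≤ σ.im → F (q.out⁻¹ • σ) < F τ₁ := fun q => by
    obtain ⟨Y, hY⟩ := isZeroAtImInfty_iff.mp (hzero q.out⁻¹) (F τ₁ / 2) (half_pos h₁)
    refine ⟨Y, fun σ hσ => ?_⟩
    have h2 := hY σ hσ
    rw [Real.norm_eq_abs, abs_le] at h2
    linarith [h2.2]
  choose Y hY using hY
  set Z : ℝ := ∑ q, |Y q| with hZ
  set K : Set ℍ := ⋃ q : SL(2, ℤ) ⧸ Γ,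
    (fun σ : ℍ => q.out⁻¹ • σ) '' ModularGroup.truncatedFundamentalDomain Z
  have hK : IsCompact K := isCompact_iUnion fun q =>
    (ModularGroup.isCompact_truncatedFundamentalDomain Z).image
      (by simp only [ModularGroup.sl_moeb]; fun_prop)
  have hcase : ∀ τ : ℍ, F τ < F τ₁ ∨ ∃ x ∈ K, F x = F τ := fun τ => by
    obtain ⟨g, hg⟩ := ModularGroup.exists_smul_mem_fd τ
    set q : SL(2, ℤ) ⧸ Γ := (g : SL(2, ℤ) ⧸ Γ)
    have hγ : (QuotientGroup.mk g : SL(2, ℤ) ⧸ Γ).out⁻¹ * g ∈ Γ :=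
      QuotientGroup.eq.mp (Quotient.out_eq' _)
    have hτ : F τ = F (q.out⁻¹ • g • τ) := by
      rw [← mul_smul, hinv _ hγ]
    rcases le_or_gt Z (g • τ).im with h | h
    · left
      rw [hτ]
      refine hY q _ (le_trans ?_ h)
      exact (le_abs_self _).trans (Finset.single_le_sum (f := fun q => |Y q|)
        (fun _ _ => abs_nonneg _) (Finset.mem_univ q))
    · right
      exact ⟨_, Set.mem_iUnion.mpr ⟨q, Set.mem_image_of_mem _ ⟨hg, h.le⟩⟩, hτ.symm⟩
  obtain ⟨x₁, hx₁, hFx₁⟩ := (hcase τ₁).resolve_left (lt_irrefl _)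
  obtain ⟨τ₀, -, hmax⟩ := hK.exists_isMaxOn ⟨x₁, hx₁⟩ hcont.continuousOn
  refine ⟨τ₀, fun τ => ?_⟩
  rcases hcase τ with h | ⟨x, hx, hFx⟩
  · exact h.le.trans (hFx₁ ▸ hmax hx₁)
  · exact hFx ▸ hmax hx

variable {N : ℕ}

/-- The invariant height `|f τ| ⬝ Im τ` of a weight two form. -/
def weightTwoHeight (f : CuspForm (Gamma0 N) 2) (τ : ℍ) : ℝ := ‖f τ‖ * τ.im

theorem weightTwoHeight_sq (f : CuspForm (Gamma0 N) 2) (τ : ℍ) :
    ‖petersson 2 f f τ‖ = weightTwoHeight f τ ^ 2 := by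
  simp [petersson, weightTwoHeight, pow_two]
  ring

theorem weightTwoHeight_nonneg (f : CuspForm (Gamma0 N) 2) (τ : ℍ) : 0 ≤ weightTwoHeight f τ :=
  mul_nonneg (norm_nonneg _) τ.im_pos.le

variable [NeZero N]

open ConjAct Pointwise Matrix.SpecialLinearGroup in
theorem isZeroAtImInfty_petersson_norm (f : CuspForm (Gamma0 N) 2) (g : SL(2, ℤ)) :
    IsZeroAtImInfty fun τ => ‖petersson 2 f f (g • τ)‖ := by
  rw [IsZeroAtImInfty, ZeroAtFilter, ← tendsto_zero_iff_norm_tendsto_zero]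
  simp_rw [← UpperHalfPlane.petersson_slash_SL]
  have : ((toConjAct (g : GL (Fin 2) ℝ)⁻¹) •
      ((Gamma0 N : Subgroup SL(2, ℤ)).map (mapGL ℝ))).IsArithmetic := by
    simpa [(show Rat.castHom ℝ = algebraMap ℚ ℝ by rfl), map_inv, map_mapGL]
      using! Subgroup.IsArithmetic.conj ((Gamma0 N : Subgroup SL(2, ℤ)).map (mapGL ℝ))
        (mapGL ℚ g)⁻¹
  exact (CuspFormClass.zero_at_infty (CuspForm.translate f g)).petersson_isZeroAtImInfty_left 2 _
    (ModularForm.translate f g)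

theorem exists_max_weightTwoHeight {f : CuspForm (Gamma0 N) 2} (hf : f ≠ 0) :
    ∃ τ₀, 0 < weightTwoHeight f τ₀ ∧ ∀ τ, weightTwoHeight f τ ≤ weightTwoHeight f τ₀ := by
  obtain ⟨τ₁, hτ₁⟩ : ∃ τ, f τ ≠ 0 := by
    by_contra h
    push Not at h
    exact hf (DFunLike.ext _ _ h)
  have h₁ : 0 < ‖petersson 2 f f τ₁‖ := by
    rw [weightTwoHeight_sq]
    exact pow_pos (mul_pos (norm_pos_iff.mpr hτ₁) τ₁.im_pos) 2
  obtain ⟨τ₀, hτ₀⟩ := exists_isMax_of_invariant_of_zero_at_cusps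
    (F := fun τ => ‖petersson 2 f f τ‖) (by fun_prop) (isZeroAtImInfty_petersson_norm f)
    (Gamma0 N) (fun g hg τ => SlashInvariantFormClass.norm_petersson_smul (f := f) (f' := f)
      (Subgroup.mem_map_of_mem _ hg)) h₁
  simp only [weightTwoHeight_sq] at hτ₀
  have hmax : ∀ τ, weightTwoHeight f τ ≤ weightTwoHeight f τ₀ := fun τ =>
    (sq_le_sq₀ (weightTwoHeight_nonneg f τ) (weightTwoHeight_nonneg f τ₀)).mp (hτ₀ τ)
  exact ⟨τ₀, lt_of_lt_of_le (mul_pos (norm_pos_iff.mpr hτ₁) τ₁.im_pos) (hmax τ₁), hmax⟩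

/-- An eigenvalue of `T_p` (as an operator on functions) on a nonzero weight two cusp form has
absolute value less than `p + 1`. -/
theorem norm_eigenvalue_lt {p : ℕ} (hp : 2 ≤ p) {f : CuspForm (Gamma0 N) 2} (hf : f ≠ 0) {c : ℂ}
    (h : ModularForm.heckeT 2 p ⇑f = c • ⇑f) : ‖c‖ < p + 1 := by
  obtain ⟨τ₀, hpos, hmax⟩ := exists_max_weightTwoHeight hf
  set M := weightTwoHeight f τ₀
  have hp0 : p ≠ 0 := by omega
  have key : ∀ τ, weightTwoHeight f τ = M →
      ‖c‖ * M ≤ p * M + weightTwoHeight f (ModularForm.heckeDiagMatrix p • τ) := by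
    intro τ hτ
    have e := congrFun h τ
    rw [ModularForm.heckeT_apply 2 hp0, Pi.smul_apply, smul_eq_mul] at e
    have e1 : ∀ j, weightTwoHeight f (ModularForm.heckeMatrix p j • τ) =
        ‖f (ModularForm.heckeMatrix p j • τ)‖ * τ.im * (p : ℝ)⁻¹ := fun j => by
      rw [weightTwoHeight, ← UpperHalfPlane.coe_im, ModularForm.coe_heckeMatrix_smul hp0,
        Complex.div_natCast_im]
      simp
      ring
    have e2 : weightTwoHeight f (ModularForm.heckeDiagMatrix p • τ) =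
        (p : ℝ) * ‖f (ModularForm.heckeDiagMatrix p • τ)‖ * τ.im := by
      rw [weightTwoHeight, ← UpperHalfPlane.coe_im, ModularForm.coe_heckeDiagMatrix_smul hp0]
      simp
      ring
    calc ‖c‖ * M = ‖c * f τ‖ * τ.im := by rw [← hτ, weightTwoHeight, norm_mul]; ring
      _ ≤ ((p : ℝ)⁻¹ * ∑ j ∈ Finset.range p, ‖f (ModularForm.heckeMatrix p j • τ)‖ +
          (p : ℝ) * ‖f (ModularForm.heckeDiagMatrix p • τ)‖) * τ.im := by
        rw [← e]
        refine mul_le_mul_of_nonneg_right ((norm_add_le _ _).trans (add_le_add ?_ ?_)) τ.im_pos.le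
        · rw [norm_mul, norm_inv, Complex.norm_natCast]
          gcongr
          exact norm_sum_le _ _
        · norm_num [norm_mul]
      _ = (∑ j ∈ Finset.range p, weightTwoHeight f (ModularForm.heckeMatrix p j • τ)) +
          weightTwoHeight f (ModularForm.heckeDiagMatrix p • τ) := by
        simp_rw [e1, e2, Finset.mul_sum, add_mul, Finset.sum_mul]
        congr 1
        exact Finset.sum_congr rfl fun j _ => by ring
      _ ≤ p * M + weightTwoHeight f (ModularForm.heckeDiagMatrix p • τ) := by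
        gcongr
        refine (Finset.sum_le_card_nsmul _ _ M fun j _ => hmax _).trans_eq ?_
        rw [Finset.card_range, nsmul_eq_mul]
  by_contra hc
  rw [not_lt] at hc
  have hstep : ∀ τ, weightTwoHeight f τ = M →
      weightTwoHeight f (ModularForm.heckeDiagMatrix p • τ) = M := fun τ hτ => by
    refine le_antisymm (hmax _) ?_
    have h1 := key τ hτ
    nlinarith [mul_le_mul_of_nonneg_right hc hpos.le]
  have hiter : ∀ n : ℕ, ∃ τ, weightTwoHeight f τ = M ∧ τ.im = (p : ℝ) ^ n * τ₀.im := by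
    intro n
    induction n with
    | zero => exact ⟨τ₀, rfl, by simp⟩
    | succ n IH =>
      obtain ⟨τ, hτ, him⟩ := IH
      refine ⟨_, hstep τ hτ, ?_⟩
      rw [← UpperHalfPlane.coe_im, ModularForm.coe_heckeDiagMatrix_smul hp0]
      simp [him]
      ring
  obtain ⟨Y, hY⟩ := isZeroAtImInfty_iff.mp (isZeroAtImInfty_petersson_norm f 1) (M ^ 2 / 2)
    (by positivity)
  obtain ⟨n, hn⟩ := pow_unbounded_of_one_lt (Y / τ₀.im) (show (1 : ℝ) < p by exact_mod_cast hp)
  obtain ⟨τ, hτ, him⟩ := hiter n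
  have h1 := hY τ (by rw [him]; exact ((div_lt_iff₀ τ₀.im_pos).mp hn).le)
  rw [one_smul, norm_norm, weightTwoHeight_sq, hτ] at h1
  nlinarith [pow_pos hpos 2]

/-- The elementary bound for the prime coefficients of a normalised eigenform. -/
theorem norm_qCoeff_prime_lt {f : CuspForm (Gamma0 N) 2} (hf : f.IsNormalizedEigenform) {p : ℕ}
    (hp : p.Prime) (hpN : ¬ p ∣ N) : ‖qCoeff f p‖ < p + 1 := by
  have hne : f ≠ 0 := by
    rintro rfl
    exact zero_ne_one ((qCoeff_zero_form 1).symm.trans hf.qCoeff_one)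
  refine norm_eigenvalue_lt hp.two_le hne ?_
  rw [← CuspForm.coe_heckeTLin_apply 2 hp hpN, ← FunLike.coe_smul]
  refine congrArg DFunLike.coe (eq_of_qCoeff_eq fun n => ?_)
  rw [qCoeff_heckeTLin, qCoeff_smul]
  rcases eq_or_ne n 0 with rfl | hn
  · simp [qCoeff_at_zero]
  obtain ⟨r, m, hm, rfl⟩ := Nat.exists_eq_pow_mul_and_not_dvd hn p hp.ne_one
  have hcop : ∀ s, (p ^ s).Coprime m := fun s =>
    Nat.Coprime.pow_left s (hp.coprime_iff_not_dvd.mpr hm)
  rcases r with _ | r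
  · rw [pow_zero, Nat.one_mul, if_neg hm, add_zero, Nat.mul_comm,
      hf.qCoeff_mul_of_coprime _ _ (hp.coprime_iff_not_dvd.mpr hm)]
  · rw [if_pos ((dvd_pow_self p r.succ_ne_zero).mul_right m),
      show p ^ (r + 1) * m * p = p ^ (r + 2) * m by ring,
      show p ^ (r + 1) * m = p * (p ^ r * m) by ring, Nat.mul_div_cancel_left _ hp.pos,
      show p * (p ^ r * m) = p ^ (r + 1) * m by ring, hf.qCoeff_mul_of_coprime _ _ (hcop _),
      hf.qCoeff_mul_of_coprime _ _ (hcop _), hf.qCoeff_mul_of_coprime _ _ (hcop _),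
      hf.qCoeff_prime_pow_of_not_dvd p r hp hpN]
    norm_num
    ring

end FLTAgent.Eigenforms

end
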