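import Mathlib.RingTheory.Ideal.GoingUp
import Mathlib.RingTheory.Ideal.MinimalPrime.Localization
import Mathlib.FieldTheory.IsAlgClosed.Basic
import Mathlib.LinearAlgebra.Dual.Lemmas
import Mathlib.RingTheory.Localization.Module
import Mathlib.RingTheory.IntegralClosure.IntegrallyClosed
import Mathlib.RingTheory.Algebraic.Integral
import Mathlib.Analysis.Complex.Polynomial.Basic
import Mathlib.RingTheory.Ideal.Int

/-!
# Algebra for eigenforms

Pure algebra used by the eigenform toolkit: integer vectors independent over `ℤ` stay independent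
in characteristic zero (`linearIndependent_intCast`), homomorphisms to algebraically closed fields
extend along integral extensions (`exists_ringHom_extension`), and characters of orders lift to
the algebraic integers in `ℂ` (`exists_complex_lift`, `isMaximal_ker_of_charP`).
-/

set_option autoImplicit false

namespace FLTAgent.Eigenforms

/-- Integer vectors which are linearly independent over `ℤ` stay independent in any field of
characteristic zero. -/
theorem linearIndependent_intCast {κ ι : Type*} {K : Type*} [Field K] [CharZero K]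
    {v : κ → ι → ℤ} (hv : LinearIndependent ℤ v) :
    LinearIndependent K (fun k i => (v k i : K)) := by
  let castQ : (ι → ℤ) →ₗ[ℤ] (ι → ℚ) :=
    (Algebra.linearMap ℤ ℚ).compLeft ι
  have hinj : Function.Injective castQ := fun x y h =>
    funext fun i => Int.cast_injective (congrFun h i)
  have hQ : LinearIndependent ℚ (castQ ∘ v) :=
    (LinearIndependent.iff_fractionRing ℤ ℚ).mp (hv.map' castQ (LinearMap.ker_eq_bot.mpr hinj))
  rw [linearIndependent_iff']
  intro s c hc k hk
  refine (Module.forall_dual_apply_eq_zero_iff ℚ (c k)).mp fun φ => ?_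
  refine (linearIndependent_iff'.mp hQ) s (fun j => φ (c j)) ?_ k hk
  funext i
  have h1 := congrArg φ (congrFun hc i)
  simp only [Finset.sum_apply, Pi.smul_apply, Pi.zero_apply, map_sum, map_zero, smul_eq_mul] at h1
  simp only [Finset.sum_apply, Pi.smul_apply, Pi.zero_apply, smul_eq_mul]
  refine (Finset.sum_congr rfl fun j _ => ?_).trans h1
  have h2 : c j * (v j i : K) = (v j i : ℚ) • c j := by
    rw [Rat.smul_def, mul_comm]; norm_cast
  rw [h2, map_smul, smul_eq_mul, mul_comm]
  rfl

/-- A ring homomorphism into an algebraically closed field extends along an injective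
integral homomorphism. -/
theorem exists_ringHom_extension {A B : Type*} [CommRing A] [CommRing B] {K : Type*} [Field K]
    [IsAlgClosed K] (i : A →+* B) (hi : Function.Injective i) (hint : i.IsIntegral)
    (φ : A →+* K) : ∃ ψ : B →+* K, ψ.comp i = φ := by
  let _ : Algebra A B := i.toAlgebra
  have : Algebra.IsIntegral A B := ⟨hint⟩
  have hker : Ideal.comap (algebraMap A B) ⊥ ≤ RingHom.ker φ := by
    intro x hx
    have hx0 : x = 0 := hi (by rw [map_zero]; exact hx)
    simp [hx0]
  have : (RingHom.ker φ).IsPrime := RingHom.ker_isPrime φ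
  obtain ⟨Q, -, hQ, hQc⟩ :=
    Ideal.exists_ideal_over_prime_of_isIntegral (RingHom.ker φ) (⊥ : Ideal B) hker
  have := hQ
  have : Q.LiesOver (RingHom.ker φ) := ⟨hQc.symm⟩
  let φbar : A ⧸ RingHom.ker φ →+* K := RingHom.kerLift φ
  let _ : Algebra (A ⧸ RingHom.ker φ) K := φbar.toAlgebra
  have : FaithfulSMul (A ⧸ RingHom.ker φ) K :=
    (faithfulSMul_iff_algebraMap_injective _ _).mpr (RingHom.kerLift_injective φ)
  have : Algebra.IsIntegral (A ⧸ RingHom.ker φ) (B ⧸ Q) :=
    Algebra.IsIntegral.tower_top (R := A)
  let g : B ⧸ Q →ₐ[A ⧸ RingHom.ker φ] K := IsAlgClosed.lift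
  refine ⟨g.toRingHom.comp (Ideal.Quotient.mk Q), RingHom.ext fun a => ?_⟩
  have h := g.commutes (Ideal.Quotient.mk (RingHom.ker φ) a)
  exact h

/-- A character of a torsion-free integral `ℤ`-algebra into an algebraically closed field
lifts to a complex character with algebraic integer values, up to a ring homomorphism from the
ring of algebraic integers. -/
theorem exists_complex_lift {T : Type*} [CommRing T] [Algebra.IsIntegral ℤ T]
    [IsAddTorsionFree T] {K : Type*} [Field K] [IsAlgClosed K] (θ : T →+* K) :
    ∃ (Λ : T →+* integralClosure ℤ ℂ) (ψ : integralClosure ℤ ℂ →+* K), ψ.comp Λ = θ := by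
  have : Nontrivial T := θ.domain_nontrivial
  have : (RingHom.ker θ).IsPrime := RingHom.ker_isPrime θ
  obtain ⟨P, hP, hPle⟩ := Ideal.exists_minimalPrimes_le (bot_le : ⊥ ≤ RingHom.ker θ)
  have : P.IsPrime := hP.1.1
  have hinjZ : Function.Injective (algebraMap ℤ (T ⧸ P)) := by
    refine (injective_iff_map_eq_zero _).mpr fun n hn => ?_
    by_contra h0
    rw [IsScalarTower.algebraMap_apply ℤ T (T ⧸ P), Ideal.Quotient.algebraMap_eq,
      Ideal.Quotient.eq_zero_iff_mem] at hn
    refine notMem_nonZeroDivisors_of_mem_mem_minimalPrimes hn hP ?_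
    rw [mem_nonZeroDivisors_iff_right]
    intro x hx
    rw [mul_comm, ← Algebra.smul_def] at hx
    exact zsmul_right_injective h0 (show n • x = n • 0 by simpa using hx)
  have : Algebra.IsIntegral ℤ (T ⧸ P) := ⟨fun x => by
    obtain ⟨t, rfl⟩ := Ideal.Quotient.mk_surjective x
    exact (Algebra.IsIntegral.isIntegral (R := ℤ) t).map
      (Ideal.Quotient.mk P).toIntAlgHom⟩
  obtain ⟨l, hl⟩ := exists_ringHom_extension (algebraMap ℤ (T ⧸ P)) hinjZ
    (fun x => Algebra.IsIntegral.isIntegral x) (algebraMap ℤ ℂ)
  have hlinj : Function.Injective l := by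
    rw [RingHom.injective_iff_ker_eq_bot]
    refine Ideal.eq_bot_of_comap_eq_bot (R := ℤ) ?_
    rw [RingHom.comap_ker, hl, ← RingHom.injective_iff_ker_eq_bot]
    exact Int.cast_injective
  have hmem : ∀ x, l x ∈ integralClosure ℤ ℂ := fun x =>
    (Algebra.IsIntegral.isIntegral (R := ℤ) x).map l.toIntAlgHom
  let lZ : T ⧸ P →+* integralClosure ℤ ℂ := l.codRestrict _ hmem
  have hlZ : Function.Injective lZ := fun x y h => hlinj (congrArg Subtype.val h)
  let θ' : T ⧸ P →+* K := Ideal.Quotient.lift P θ fun x hx => hPle hx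
  have hint : lZ.IsIntegral := by
    intro x
    have hx : IsIntegral ℤ x := integralClosure.isIntegral x
    let _ : Algebra (T ⧸ P) (integralClosure ℤ ℂ) := lZ.toAlgebra
    have : IsScalarTower ℤ (T ⧸ P) (integralClosure ℤ ℂ) :=
      IsScalarTower.of_algebraMap_eq' (RingHom.ext_int _ _)
    exact hx.tower_top
  obtain ⟨ψ, hψ⟩ := exists_ringHom_extension lZ hlZ hint θ'
  refine ⟨lZ.comp (Ideal.Quotient.mk P), ψ, ?_⟩
  rw [← RingHom.comp_assoc, hψ]
  rfl

/-- The kernel of a ring homomorphism from the algebraic integers to a field of positive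
characteristic is maximal. -/
theorem isMaximal_ker_of_charP {K : Type*} [Field K] {p : ℕ} [CharP K p] (hp : p.Prime)
    (ψ : integralClosure ℤ ℂ →+* K) : (RingHom.ker ψ).IsMaximal := by
  have := Fact.mk hp
  have : (RingHom.ker ψ).IsPrime := RingHom.ker_isPrime ψ
  refine Ideal.isMaximal_of_isIntegral_of_isMaximal_comap (R := ℤ) _ ?_
  rw [RingHom.comap_ker, RingHom.ext_int (ψ.comp (algebraMap ℤ _)) (Int.castRingHom K),
    show RingHom.ker (Int.castRingHom K) = Ideal.span {(p : ℤ)} from Ideal.ext fun n => by
      rw [RingHom.mem_ker, Ideal.mem_span_singleton, eq_intCast]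
      exact CharP.intCast_eq_zero_iff K p n]
  exact Int.ideal_span_isMaximal_of_prime p

end FLTAgent.Eigenforms
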