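import Fermat.Prelude.Def_CuspForm_HeckeEvalForms
import Fermat.Prelude.Def_CuspForm_IntegralStructure
import Fermat.Prelude.Thm_ModularFormClass_qCoeff_heckeT
import Fermat.Prelude.Thm_ModularFormClass_qCoeff_heckeU
import Fermat.Prelude.Thm_CongruenceSubgroup_one_mem_strictPeriods_Gamma0
import Fermat.Prelude.Thm_UpperHalfPlane_eq_of_forall_qCoeff_eq
import Mathlib.NumberTheory.ModularForms.QExpansion

/-!
# `q`-coefficients of cusp forms on `Γ₀(N)`

`q`-coefficients of weight `k` cusp forms on `Γ₀(N)` as linear maps (`qCoeffLin`, `qCoeffAt`), their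
behaviour under the Hecke operators (`qCoeff_heckeTLin`, `qCoeff_heckeULin`,
`qCoeff_heckeFormsGen`) and the integer coefficients of the integral lattice (`intCoeff`,
`mem_intLattice_iff`).
-/

set_option autoImplicit false

noncomputable section

open CongruenceSubgroup ModularFormClass UpperHalfPlane
open scoped MatrixGroups ModularForm

namespace FLTAgent.Eigenforms

variable {N : ℕ} {k : ℤ}

theorem qCoeff_add (f g : CuspForm (Gamma0 N) k) (n : ℕ) :
    qCoeff (f + g : CuspForm (Gamma0 N) k) n = qCoeff f n + qCoeff g n := by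
  simp only [qCoeff, FunLike.coe_add]
  rw [ModularForm.qExpansion_add one_pos (one_mem_strictPeriods_Gamma0 N) f g, map_add]

theorem qCoeff_smul (c : ℂ) (f : CuspForm (Gamma0 N) k) (n : ℕ) :
    qCoeff (c • f : CuspForm (Gamma0 N) k) n = c * qCoeff f n := by
  simp only [qCoeff, FunLike.coe_smul]
  rw [ModularForm.qExpansion_smul one_pos (one_mem_strictPeriods_Gamma0 N) c f]
  simp

/-- The `q`-expansion as a linear map. -/
def qCoeffLin (N : ℕ) (k : ℤ) : CuspForm (Gamma0 N) k →ₗ[ℂ] (ℕ → ℂ) where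
  toFun f n := qCoeff f n
  map_add' f g := funext fun n => qCoeff_add f g n
  map_smul' c f := funext fun n => qCoeff_smul c f n

@[simp] theorem qCoeffLin_apply (f : CuspForm (Gamma0 N) k) (n : ℕ) :
    qCoeffLin N k f n = qCoeff f n := rfl

/-- The `n`-th `q`-coefficient as a linear functional. -/
def qCoeffAt (N : ℕ) (k : ℤ) (n : ℕ) : CuspForm (Gamma0 N) k →ₗ[ℂ] ℂ :=
  LinearMap.proj n ∘ₗ qCoeffLin N k

@[simp] theorem qCoeffAt_apply (f : CuspForm (Gamma0 N) k) (n : ℕ) :
    qCoeffAt N k n f = qCoeff f n := rfl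

/-- The coefficients of the zero form vanish. -/
theorem qCoeff_zero_form (n : ℕ) : qCoeff (0 : CuspForm (Gamma0 N) k) n = 0 :=
  map_zero (qCoeffAt N k n)

theorem qCoeff_sub (f g : CuspForm (Gamma0 N) k) (n : ℕ) :
    qCoeff (f - g : CuspForm (Gamma0 N) k) n = qCoeff f n - qCoeff g n :=
  map_sub (qCoeffAt N k n) f g

theorem qCoeff_zsmul (c : ℤ) (f : CuspForm (Gamma0 N) k) (n : ℕ) :
    qCoeff (c • f : CuspForm (Gamma0 N) k) n = c * qCoeff f n := by
  rw [← Int.cast_smul_eq_zsmul ℂ c f, qCoeff_smul]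

theorem qCoeff_at_zero (f : CuspForm (Gamma0 N) k) [NeZero N] : qCoeff f 0 = 0 := by
  rw [qCoeff, CuspFormClass.qExpansion_coeff_zero f one_pos (one_mem_strictPeriods_Gamma0 N)]

theorem eq_of_qCoeff_eq [NeZero N] {f g : CuspForm (Gamma0 N) k}
    (h : ∀ n, qCoeff f n = qCoeff g n) : f = g := by
  have hΓ := one_mem_strictPeriods_Gamma0 N
  have hc : IsCusp OnePoint.infty
      ((Gamma0 N : Subgroup SL(2, ℤ)).map (Matrix.SpecialLinearGroup.mapGL ℝ)) :=
    Subgroup.isCusp_of_mem_strictPeriods one_pos hΓ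
  refine DFunLike.coe_injective (UpperHalfPlane.eq_of_forall_qCoeff_eq ?_ (CuspFormClass.holo f)
    ?_ ?_ (CuspFormClass.holo g) ?_ h)
  · exact_mod_cast SlashInvariantFormClass.periodic_comp_ofComplex f hΓ
  · exact OnePoint.isBoundedAt_infty_iff.mp (ModularFormClass.bdd_at_cusps f hc)
  · exact_mod_cast SlashInvariantFormClass.periodic_comp_ofComplex g hΓ
  · exact OnePoint.isBoundedAt_infty_iff.mp (ModularFormClass.bdd_at_cusps g hc)

theorem qCoeff_heckeTLin {p : ℕ} (hp : p.Prime) (hpN : ¬ p ∣ N)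
    (f : CuspForm (Gamma0 N) k) (n : ℕ) :
    qCoeff (CuspForm.heckeTLin k hp hpN f) n =
      qCoeff f (n * p) + if p ∣ n then (p : ℂ) ^ (k - 1) * qCoeff f (n / p) else 0 := by
  have : NeZero N := ⟨fun h => hpN (h ▸ dvd_zero p)⟩
  rw [CuspForm.coe_heckeTLin_apply,
    ModularFormClass.qCoeff_heckeT f (one_mem_strictPeriods_Gamma0 N) hp.ne_zero]
  rfl

theorem qCoeff_heckeULin [NeZero N] {p : ℕ} (hpN : p ∣ N)
    (f : CuspForm (Gamma0 N) k) (n : ℕ) :
    qCoeff (CuspForm.heckeULin k hpN f) n = qCoeff f (n * p) := by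
  rw [CuspForm.coe_heckeULin_apply,
    ModularFormClass.qCoeff_heckeU f (one_mem_strictPeriods_Gamma0 N)
      (fun h => NeZero.ne N (Nat.eq_zero_of_zero_dvd (h ▸ hpN)))]
  rfl

/-- The Hecke relation coefficient: `ℓ` at good primes, `0` at primes dividing the level. -/
def heckeE (R : Type*) [CommRing R] (N ℓ : ℕ) : R := if ℓ ∣ N then 0 else (ℓ : R)

theorem map_heckeE {R R' : Type*} [CommRing R] [CommRing R'] (φ : R →+* R') (N ℓ : ℕ) :
    φ (heckeE R N ℓ) = heckeE R' N ℓ := by
  unfold heckeE; split_ifs <;> simp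

theorem qCoeff_heckeFormsGen [NeZero N] (ℓ : Nat.Primes) (f : CuspForm (Gamma0 N) 2) (n : ℕ) :
    qCoeff ((CuspForm.heckeFormsGen N 2 ℓ).1 f) n =
      qCoeff f ((ℓ : ℕ) * n) +
        heckeE ℂ N ℓ * (if (ℓ : ℕ) ∣ n then qCoeff f (n / ℓ) else 0) := by
  by_cases h : (ℓ : ℕ) ∣ N
  · rw [CuspForm.heckeFormsGen_of_dvd h, CuspForm.heckeAlgebra.coe_U, qCoeff_heckeULin,
      Nat.mul_comm, heckeE, if_pos h, zero_mul, add_zero]
  · rw [CuspForm.heckeFormsGen_of_not_dvd h, CuspForm.heckeAlgebra.coe_T, qCoeff_heckeTLin,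
      Nat.mul_comm, heckeE, if_neg h]
    norm_num

/-! ### The integral lattice -/

/-- Forms all of whose coefficients lie in the integers. -/
def intSubmodule (N : ℕ) (k : ℤ) : Submodule ℤ (CuspForm (Gamma0 N) k) where
  carrier := {f | ∀ n : ℕ, ∃ m : ℤ, qCoeff f n = (m : ℂ)}
  add_mem' {f g} hf hg n := by
    obtain ⟨a, ha⟩ := hf n
    obtain ⟨b, hb⟩ := hg n
    exact ⟨a + b, by rw [qCoeff_add, ha, hb]; push_cast; ring⟩
  zero_mem' n := ⟨0, by rw [qCoeff_zero_form]; simp⟩
  smul_mem' c {f} hf n := by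
    obtain ⟨a, ha⟩ := hf n
    exact ⟨c * a, by rw [qCoeff_zsmul, ha]; push_cast; ring⟩

/-- The integral lattice consists of the forms with integral coefficients. -/
theorem mem_intLattice_iff (f : CuspForm (Gamma0 N) k) :
    f ∈ CuspForm.intLattice N k ↔ ∀ n : ℕ, ∃ m : ℤ, qCoeff f n = (m : ℂ) := by
  rw [show CuspForm.intLattice N k = intSubmodule N k from Submodule.span_eq (intSubmodule N k)]
  rfl

/-- The integer `q`-coefficient of an element of the integral lattice. -/
def intCoeff (f : CuspForm.intLattice N k) (n : ℕ) : ℤ :=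
  ((mem_intLattice_iff f.1).mp f.2 n).choose

/-- The integral coefficient of a lattice form. -/
theorem intCoeff_spec (f : CuspForm.intLattice N k) (n : ℕ) :
    (intCoeff f n : ℂ) = qCoeff (f.1 : CuspForm (Gamma0 N) k) n :=
  (((mem_intLattice_iff f.1).mp f.2 n).choose_spec).symm

/-- The integer `q`-expansion of the lattice, as a linear map. -/
def intCoeffLin (N : ℕ) (k : ℤ) : CuspForm.intLattice N k →ₗ[ℤ] (ℕ → ℤ) where
  toFun := intCoeff
  map_add' f g := funext fun n => (Int.cast_injective (α := ℂ)) (by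
    rw [Pi.add_apply, Int.cast_add, intCoeff_spec, intCoeff_spec, intCoeff_spec,
      Submodule.coe_add, qCoeff_add])
  map_smul' c f := funext fun n => (Int.cast_injective (α := ℂ)) (by
    rw [RingHom.id_apply, Pi.smul_apply, smul_eq_mul, Int.cast_mul, intCoeff_spec, intCoeff_spec,
      Submodule.coe_smul, qCoeff_zsmul])

@[simp] theorem intCoeffLin_apply (f : CuspForm.intLattice N k) (n : ℕ) :
    intCoeffLin N k f n = intCoeff f n := rfl

end FLTAgent.Eigenforms

end
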