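import Fermat.Agent.Eigenforms.Basic
import Fermat.Agent.Eigenforms.Algebra
import Fermat.Prelude.Def_CuspForm_HeckeLocal

/-!
# Duality between the Hecke algebra and cusp forms

The `a₁`-pairing between the Hecke algebra and weight two cusp forms on `Γ₀(N)` is perfect, given
an integral structure (`heckePairing`); so the Hecke algebra is finite free over `ℤ`
(`heckeAlgebra_moduleFinite`, `heckeAlgebra_moduleFree`) and the space of forms is finite
dimensional (`cuspForm_finiteDimensional`).
-/

set_option autoImplicit false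

noncomputable section

open CongruenceSubgroup ModularFormClass
open scoped MatrixGroups

namespace FLTAgent.Eigenforms

variable {N : ℕ} [NeZero N]

/-- The `n`-th coefficient of a form is the first coefficient of its image under an element of
the Hecke algebra. -/
theorem exists_hecke_qCoeff (n : ℕ) : ∃ t : CuspForm.heckeAlgebra N 2 ∅,
    ∀ g : CuspForm (Gamma0 N) 2, qCoeff (t.1 g) 1 = qCoeff g n := by
  induction n using Nat.strong_induction_on with
  | _ n IH =>
    rcases eq_or_ne n 0 with rfl | hn0
    · exact ⟨0, fun g => by rw [ZeroMemClass.coe_zero, LinearMap.zero_apply, qCoeff_zero_form,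
        qCoeff_at_zero]⟩
    rcases eq_or_ne n 1 with rfl | hn1
    · exact ⟨1, fun g => by rw [OneMemClass.coe_one, Module.End.one_apply]⟩
    have hp : n.minFac.Prime := Nat.minFac_prime hn1
    obtain ⟨m, hm⟩ := Nat.minFac_dvd n
    set p : Nat.Primes := ⟨n.minFac, hp⟩
    have hmlt : m < n := by
      rcases Nat.eq_zero_or_pos m with rfl | hpos
      · omega
      · exact hm ▸ lt_mul_left hpos hp.one_lt
    obtain ⟨t, ht⟩ := IH m hmlt
    have key : ∀ g : CuspForm (Gamma0 N) 2,
        qCoeff ((t * CuspForm.heckeFormsGen N 2 p).1 g) 1 =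
          qCoeff g n + heckeE ℂ N p * (if (p : ℕ) ∣ m then qCoeff g (m / p) else 0) := fun g => by
      rw [MulMemClass.coe_mul, Module.End.mul_apply, ht, qCoeff_heckeFormsGen]
      exact congrArg (fun x => qCoeff g x + _) hm.symm
    by_cases hpm : (p : ℕ) ∣ m
    · obtain ⟨u, hu⟩ := IH (m / p) (lt_of_le_of_lt (Nat.div_le_self _ _) hmlt)
      refine ⟨t * CuspForm.heckeFormsGen N 2 p - heckeE ℤ N p • u, fun g => ?_⟩
      rw [AddSubgroupClass.coe_sub, LinearMap.sub_apply, SetLike.val_smul, LinearMap.smul_apply,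
        qCoeff_sub, key, qCoeff_zsmul, hu, if_pos hpm, ← eq_intCast (Int.castRingHom ℂ),
        map_heckeE, add_sub_cancel_right]
    · refine ⟨t * CuspForm.heckeFormsGen N 2 p, fun g => ?_⟩
      rw [key, if_neg hpm, mul_zero, add_zero]

/-- A form is determined by the first coefficients of its Hecke translates. -/
theorem hecke_qCoeff_one_injective {g g' : CuspForm (Gamma0 N) 2}
    (h : ∀ t : CuspForm.heckeAlgebra N 2 ∅, qCoeff (t.1 g) 1 = qCoeff (t.1 g') 1) : g = g' :=
  eq_of_qCoeff_eq fun n => by
    obtain ⟨t, ht⟩ := exists_hecke_qCoeff (N := N) n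
    rw [← ht, ← ht, h t]

/-- A Hecke operator is determined by the functional `g ↦ a₁ (t g)`. -/
theorem hecke_eq_zero_of_qCoeff_one {t : CuspForm.heckeAlgebra N 2 ∅}
    (h : ∀ g : CuspForm (Gamma0 N) 2, qCoeff (t.1 g) 1 = 0) : t = 0 := by
  refine Subtype.ext (LinearMap.ext fun g => ?_)
  refine hecke_qCoeff_one_injective fun s => ?_
  rw [← Module.End.mul_apply, ← MulMemClass.coe_mul, mul_comm, MulMemClass.coe_mul,
    Module.End.mul_apply, h, ZeroMemClass.coe_zero, LinearMap.zero_apply, map_zero,
    qCoeff_zero_form]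

theorem heckeAlgebra_moduleFinite (hint : CuspForm.HasIntegralStructure N 2) (S : Set ℕ) :
    Module.Finite ℤ (CuspForm.heckeAlgebra N 2 S) :=
  Module.Finite.equiv
    (AlgEquiv.ofBijective (CuspForm.latticeRestrictHom N S)
      (CuspForm.latticeRestrictHom_bijective N S hint)).symm.toLinearEquiv

theorem heckeAlgebra_isIntegral (hint : CuspForm.HasIntegralStructure N 2) (S : Set ℕ) :
    Algebra.IsIntegral ℤ (CuspForm.heckeAlgebra N 2 S) :=
  have := heckeAlgebra_moduleFinite hint S
  Algebra.IsIntegral.of_finite ℤ _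

theorem heckeAlgebra_moduleFree (hint : CuspForm.HasIntegralStructure N 2) (S : Set ℕ) :
    Module.Free ℤ (CuspForm.heckeAlgebra N 2 S) :=
  have := heckeAlgebra_moduleFinite hint S
  Module.free_of_finite_type_torsion_free'

/-- The `a₁`-pairing, as a map from forms to functionals on the Hecke algebra. -/
def heckePairingLin (N : ℕ) [NeZero N] :
    CuspForm (Gamma0 N) 2 →ₗ[ℂ] (CuspForm.heckeAlgebra N 2 ∅ →ₗ[ℤ] ℂ) where
  toFun g :=
    { toFun := fun t => qCoeff (t.1 g) 1
      map_add' := fun s t => by rw [AddMemClass.coe_add, LinearMap.add_apply, qCoeff_add]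
      map_smul' := fun c t => by
        rw [SetLike.val_smul, LinearMap.smul_apply, qCoeff_zsmul, RingHom.id_apply, zsmul_eq_mul] }
  map_add' f g := LinearMap.ext fun t => by
    simp only [LinearMap.coe_mk, AddHom.coe_mk, LinearMap.add_apply, map_add, qCoeff_add]
  map_smul' c g := LinearMap.ext fun t => by
    simp only [LinearMap.coe_mk, AddHom.coe_mk, LinearMap.smul_apply, map_smul, qCoeff_smul,
      RingHom.id_apply, smul_eq_mul]

@[simp] theorem heckePairingLin_apply (g : CuspForm (Gamma0 N) 2)
    (t : CuspForm.heckeAlgebra N 2 ∅) : heckePairingLin N g t = qCoeff (t.1 g) 1 := rfl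

theorem heckePairingLin_injective : Function.Injective (heckePairingLin N) := fun _ _ h =>
  hecke_qCoeff_one_injective fun t => LinearMap.congr_fun h t

theorem heckePairingLin_surjective (hint : CuspForm.HasIntegralStructure N 2) :
    Function.Surjective (heckePairingLin N) := by
  classical
  have := heckeAlgebra_moduleFinite hint ∅
  have := heckeAlgebra_moduleFree hint ∅
  let b := Module.Free.chooseBasis ℤ (CuspForm.heckeAlgebra N 2 ∅)
  let M : CuspForm (Gamma0 N) 2 →ₗ[ℂ] (Module.Free.ChooseBasisIndex ℤ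
      (CuspForm.heckeAlgebra N 2 ∅) → ℂ) :=
    LinearMap.pi fun i => qCoeffAt N 2 1 ∘ₗ (b i).1
  let v : Module.Free.ChooseBasisIndex ℤ (CuspForm.heckeAlgebra N 2 ∅) →
      CuspForm.intLattice N 2 → ℤ := fun i g =>
    intCoeff ⟨(b i).1 g.1,
      CuspForm.mem_intLattice_of_mem_heckeAlgebra one_le_two (b i).2 g.2⟩ 1
  have hv : LinearIndependent ℤ v := by
    rw [Fintype.linearIndependent_iff]
    intro z hz
    refine Fintype.linearIndependent_iff.mp b.linearIndependent z ?_
    refine hecke_eq_zero_of_qCoeff_one fun g => ?_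
    suffices h : qCoeffAt N 2 1 ∘ₗ (∑ i, z i • b i).1 = 0 from LinearMap.congr_fun h g
    refine LinearMap.ext_on hint fun g hg => ?_
    have h1 := congrArg (fun x : ℤ => (x : ℂ)) (congrFun hz ⟨g, hg⟩)
    simp only [v, Finset.sum_apply, Pi.smul_apply, Pi.zero_apply, smul_eq_mul, Int.cast_sum,
      Int.cast_mul, intCoeff_spec, Int.cast_zero] at h1
    rw [AddSubmonoidClass.coe_finsetSum, LinearMap.zero_apply, LinearMap.comp_apply,
      LinearMap.sum_apply, map_sum]
    refine (Finset.sum_congr rfl fun i _ => ?_).trans h1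
    rw [SetLike.val_smul, LinearMap.smul_apply, qCoeffAt_apply, qCoeff_zsmul]
  have hvC := Fintype.linearIndependent_iff.mp (linearIndependent_intCast (K := ℂ) hv)
  have hM : Function.Surjective M := by
    rw [← LinearMap.range_eq_top]
    by_contra hne
    obtain ⟨F, hF0, hF⟩ :=
      Submodule.exists_dual_map_eq_bot_of_lt_top (lt_top_iff_ne_top.mpr hne) inferInstance
    refine hF0 (LinearMap.pi_ext fun i x => ?_)
    have hc : ∀ i, F (Pi.single i 1) = 0 := by
      refine hvC (fun i => F (Pi.single i 1)) (funext fun g => ?_)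
      have h0 : F (M g.1) = 0 := by
        have hmem := Submodule.mem_map_of_mem (f := F) (LinearMap.mem_range_self M g.1)
        rwa [hF, Submodule.mem_bot] at hmem
      rw [pi_eq_sum_univ' (M g.1), map_sum] at h0
      simp only [Finset.sum_apply, Pi.smul_apply, Pi.zero_apply, smul_eq_mul, v, intCoeff_spec]
      refine (Finset.sum_congr rfl fun i _ => ?_).trans h0
      rw [map_smul, smul_eq_mul, mul_comm]
      simp [M]
    have hx : Pi.single i x = x • (Pi.single i 1 :
        Module.Free.ChooseBasisIndex ℤ (CuspForm.heckeAlgebra N 2 ∅) → ℂ) := by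
      rw [← Pi.single_smul, smul_eq_mul, mul_one]
    rw [hx, map_smul, hc, smul_zero, LinearMap.zero_apply]
  intro φ
  obtain ⟨g, hg⟩ := hM fun i => φ (b i)
  exact ⟨g, b.ext fun i => congrFun hg i⟩

/-- The perfect pairing `S₂(Γ₀(N)) ≃ Hom(𝕋, ℂ)`. -/
def heckePairing (hint : CuspForm.HasIntegralStructure N 2) :
    CuspForm (Gamma0 N) 2 ≃ₗ[ℂ] (CuspForm.heckeAlgebra N 2 ∅ →ₗ[ℤ] ℂ) :=
  LinearEquiv.ofBijective (heckePairingLin N)
    ⟨heckePairingLin_injective, heckePairingLin_surjective hint⟩

@[simp] theorem heckePairing_apply (hint : CuspForm.HasIntegralStructure N 2)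
    (g : CuspForm (Gamma0 N) 2) (t : CuspForm.heckeAlgebra N 2 ∅) :
    heckePairing hint g t = qCoeff (t.1 g) 1 := rfl

/-- An integral structure makes the space of cusp forms finite dimensional. -/
theorem cuspForm_finiteDimensional (hint : CuspForm.HasIntegralStructure N 2) :
    FiniteDimensional ℂ (CuspForm (Gamma0 N) 2) := by
  classical
  have := Module.Finite.iff_fg.mpr (CuspForm.intLattice_fg N 2)
  obtain ⟨s, hs⟩ := CuspForm.intLattice_fg N 2
  refine ⟨⟨s, top_le_iff.mp ?_⟩⟩
  rw [← hint, Submodule.span_le]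
  intro f hf
  exact Submodule.span_le_restrictScalars ℤ ℂ _ (hs.symm ▸ hf)

end FLTAgent.Eigenforms

end
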